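/-
Programme MW (S17), brick BR+ / TVAL-RES (helper89): **the residue map at a place of a function
field in one variable over an algebraically closed field**, its Galois (semilinear) equivariance,
and the values of the functions regular away from the poles of a coordinate `t`.

Setting: `K` algebraically closed, `F / K` a field with a generator `x` (`X0.FF.IsGen K x`: `x`
transcendental, `F` finite over `K(x)`), `v : Place K F`.

* (i)   `res hx v : O_v →ₐ[K] K`, the residue map (`κ(v) = K`, `FF.algebraMap_residueField_bijective`);
        `res_algebraMap`, `res_eq_iff` (`res f = c ↔ f = c ∨ 0 < ord_v (f - c)`), `res_eq_zero_iff`,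
        `ker_res = 𝔪_v`, `res_surjective`, `res_unique` (the only `K`-algebra map `O_v → K`),
        `res_congr` (independence of the generator), `resF` (the same on elements of `F` with a
        membership proof), `ord_sub_resF_pos`;
* (iii) `res_smul` : `res (g • v) (g • b) = baseAut g (res v b)` for every semilinear automorphism
        `g : SemilinearAut K F`; `res_arithmeticGalois` : the case of the arithmetic Galois action on
        `L · F₀`;
* (iv)  for a coordinate `t` (`IsGen K t`, `CharZero K`) and `B₀ = FF.intRing K t` (integral closure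
        of `K[t]` in `F`): `intRing_mem` (`B₀ ⊆ O_v` as soon as `t ∈ O_v`), `resInt ht v htv : B₀ →+* K`,
        `resInt_eq_zero_iff`, and `eq_of_resInt_eq` : two places with `t ∈ O_v ∩ O_w` and the same
        values on `B₀` are equal (a place is determined by its centre on the Dedekind domain `B₀`);
        `exists_resInt_ne` (separation of two distinct places by an element of `B₀`).
-/
import Mathlib
import Fermat.Agent.X0.FFConst
import Fermat.Agent.X0.FFSum
import Fermat.Agent.X0.FFDedekind
import Fermat.Prelude.Def_ModularCurve_ArithmeticGalois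

set_option autoImplicit false
set_option linter.unusedSectionVars false

noncomputable section

open AlgebraicCurve IntermediateField IsLocalRing

namespace Fermat.Agent.MW.Bridge89.Residue

open Fermat.Agent.X0 Fermat.Agent.X0.FF

variable {K F : Type*} [Field K] [Field F] [Algebra K F]

/-! ### (i) the residue map -/

section Res

variable [IsAlgClosed K] {x : F} (hx : IsGen K x) (v : Place K F)

/-- `K ≃ κ(v)`: residue fields of places are `K`. -/
def resEquiv : K ≃ₐ[K] v.ResidueField :=
  AlgEquiv.ofBijective (Algebra.ofId K v.ResidueField) (algebraMap_residueField_bijective hx v)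

/-- **The residue map** `O_v → K`, a `K`-algebra homomorphism with kernel `𝔪_v`. -/
def res : v.toValuationSubring →ₐ[K] K :=
  ((resEquiv hx v).symm : v.ResidueField →ₐ[K] K).comp
    (IsScalarTower.toAlgHom K v.toValuationSubring v.ResidueField)

theorem resEquiv_res (f : v.toValuationSubring) :
    algebraMap K v.ResidueField (res hx v f) = IsLocalRing.residue v.toValuationSubring f := by
  have : resEquiv hx v (res hx v f) = IsLocalRing.residue v.toValuationSubring f := by
    show resEquiv hx v ((resEquiv hx v).symm _) = _
    rw [AlgEquiv.apply_symm_apply]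
    rfl
  exact this

@[simp] theorem res_algebraMap (c : K) :
    res hx v (algebraMap K v.toValuationSubring c) = c :=
  (res hx v).commutes c

theorem res_eq_zero_iff (f : v.toValuationSubring) :
    res hx v f = 0 ↔ f ∈ maximalIdeal v.toValuationSubring := by
  rw [← IsLocalRing.residue_eq_zero_iff, ← resEquiv_res hx v f]
  exact (map_eq_zero_iff _ (algebraMap K v.ResidueField).injective).symm

theorem ker_res : RingHom.ker (res hx v : v.toValuationSubring →+* K)
    = maximalIdeal v.toValuationSubring := by
  ext f
  rw [RingHom.mem_ker]
  exact res_eq_zero_iff hx v f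

theorem res_eq_zero_iff' (f : v.toValuationSubring) :
    res hx v f = 0 ↔ (f : F) = 0 ∨ 0 < v.ord (f : F) := by
  rw [res_eq_zero_iff, mem_maximalIdeal_iff]
  constructor
  · rintro (h | h)
    · left; exact congrArg Subtype.val h
    · right; exact h
  · rintro (h | h)
    · left; exact Subtype.ext h
    · right; exact h

/-- `res f = c` iff `f = c` or `f - c` vanishes at `v`. -/
theorem res_eq_iff (f : v.toValuationSubring) (c : K) :
    res hx v f = c ↔ (f : F) = algebraMap K F c ∨ 0 < v.ord ((f : F) - algebraMap K F c) := by
  have h1 : res hx v f = c ↔ res hx v (f - algebraMap K v.toValuationSubring c) = 0 := by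
    rw [map_sub, res_algebraMap, sub_eq_zero]
  rw [h1, res_eq_zero_iff']
  have h2 : ((f - algebraMap K v.toValuationSubring c : v.toValuationSubring) : F)
      = (f : F) - algebraMap K F c := rfl
  rw [h2, sub_eq_zero]

theorem res_surjective : Function.Surjective (res hx v) := fun c =>
  ⟨algebraMap K v.toValuationSubring c, res_algebraMap hx v c⟩

/-- `f - res f` lies in the maximal ideal. -/
theorem sub_res_mem (f : v.toValuationSubring) :
    f - algebraMap K v.toValuationSubring (res hx v f) ∈ maximalIdeal v.toValuationSubring := by
  rw [← res_eq_zero_iff hx v, map_sub, res_algebraMap, sub_self]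

/-- **Uniqueness**: the residue map is the only `K`-algebra homomorphism `O_v → K`. -/
theorem res_unique (φ : v.toValuationSubring →ₐ[K] K) : φ = res hx v := by
  ext f
  have hmem := sub_res_mem hx v f
  by_contra hne
  have hu : IsUnit (φ (f - algebraMap K v.toValuationSubring (res hx v f))) := by
    rw [map_sub, AlgHom.commutes]
    exact IsUnit.mk0 _ (sub_ne_zero.mpr hne)
  -- the kernel of `φ` is a maximal ideal, hence `𝔪_v`
  have hker : RingHom.ker (φ : v.toValuationSubring →+* K) ≤ maximalIdeal v.toValuationSubring :=
    IsLocalRing.le_maximalIdeal (RingHom.ker_ne_top _)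
  have hmax : (RingHom.ker (φ : v.toValuationSubring →+* K)).IsMaximal :=
    RingHom.ker_isMaximal_of_surjective (φ : v.toValuationSubring →+* K)
      (fun c => ⟨algebraMap K v.toValuationSubring c, φ.commutes c⟩)
  have heq : RingHom.ker (φ : v.toValuationSubring →+* K) = maximalIdeal v.toValuationSubring :=
    hmax.eq_of_le (IsLocalRing.maximalIdeal.isMaximal _).ne_top hker
  rw [← heq, RingHom.mem_ker] at hmem
  have h0 : φ (f - algebraMap K v.toValuationSubring (res hx v f)) = 0 := hmem
  rw [h0] at hu
  exact not_isUnit_zero hu

/-- The residue map does not depend on the generator. -/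
theorem res_congr {y : F} (hy : IsGen K y) : res hx v = res hy v :=
  res_unique hy v (res hx v)

/-- The residue of an element of `F` regular at `v`. -/
def resF (f : F) (hf : f ∈ v.toValuationSubring) : K := res hx v ⟨f, hf⟩

theorem resF_eq_iff {f : F} (hf : f ∈ v.toValuationSubring) (c : K) :
    resF hx v f hf = c ↔ f = algebraMap K F c ∨ 0 < v.ord (f - algebraMap K F c) :=
  res_eq_iff hx v ⟨f, hf⟩ c

theorem resF_algebraMap (c : K) : resF hx v (algebraMap K F c) (v.algebraMap_mem' c) = c :=
  res_algebraMap hx v c

theorem ord_sub_resF_pos {f : F} (hf : f ∈ v.toValuationSubring) :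
    f = algebraMap K F (resF hx v f hf) ∨ 0 < v.ord (f - algebraMap K F (resF hx v f hf)) :=
  (resF_eq_iff hx v hf _).mp rfl

theorem resF_eq_of_ord_pos {f : F} (hf : f ∈ v.toValuationSubring) {c : K}
    (h : 0 < v.ord (f - algebraMap K F c)) : resF hx v f hf = c :=
  (resF_eq_iff hx v hf c).mpr (Or.inr h)

theorem resF_add {f g : F} (hf : f ∈ v.toValuationSubring) (hg : g ∈ v.toValuationSubring) :
    resF hx v (f + g) (add_mem hf hg) = resF hx v f hf + resF hx v g hg :=
  map_add (res hx v) ⟨f, hf⟩ ⟨g, hg⟩

theorem resF_mul {f g : F} (hf : f ∈ v.toValuationSubring) (hg : g ∈ v.toValuationSubring) :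
    resF hx v (f * g) (mul_mem hf hg) = resF hx v f hf * resF hx v g hg :=
  map_mul (res hx v) ⟨f, hf⟩ ⟨g, hg⟩

theorem resF_sub {f g : F} (hf : f ∈ v.toValuationSubring) (hg : g ∈ v.toValuationSubring) :
    resF hx v (f - g) (sub_mem hf hg) = resF hx v f hf - resF hx v g hg :=
  map_sub (res hx v) ⟨f, hf⟩ ⟨g, hg⟩

end Res

/-! ### (iii) semilinear (Galois) equivariance -/

section Galois

variable [IsAlgClosed K] {x : F} (hx : IsGen K x) (v : Place K F)

/-- **Equivariance of the residue map** under a semilinear automorphism `g` of `F / K`:
`(g b)(g v) = g (b(v))`. -/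
theorem resF_smul (g : SemilinearAut K F) {b : F} (hb : b ∈ v.toValuationSubring) :
    resF hx (g • v) (g • b)
        (ValuationSubring.smul_mem_pointwise_smul g b v.toValuationSubring hb)
      = SemilinearAut.baseAut g (resF hx v b hb) := by
  rw [resF_eq_iff]
  rcases ord_sub_resF_pos hx v hb with h | h
  · left
    conv_lhs => rw [h]
    exact SemilinearAut.smul_algebraMap g _
  · right
    have h1 : g • b - algebraMap K F (SemilinearAut.baseAut g (resF hx v b hb))
        = g • (b - algebraMap K F (resF hx v b hb)) := by
      rw [smul_sub, SemilinearAut.smul_algebraMap]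
    rw [h1, SemilinearAut.ord_smul]
    exact h

/-- The same for elements of the valuation ring. -/
theorem res_smul (g : SemilinearAut K F) (b : v.toValuationSubring) :
    res hx (g • v) (SemilinearAut.smulValuationSubringEquiv g v.toValuationSubring b)
      = SemilinearAut.baseAut g (res hx v b) :=
  resF_smul hx v g b.2

end Galois

section Arithmetic

open ModularCurve

variable {L : Type*} [Field L] [Algebra ℚ L] [IsAlgClosed L]
  (F₀ : IntermediateField ℚ (LaurentSeries ℚ))
  {x : laurentBaseChange L F₀} (hx : IsGen L x)

/-- **Galois equivariance of values** for the arithmetic Galois action on `L · F₀`: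
`(σ b)(σ v) = σ (b(v))`. -/
theorem resF_arithmeticGalois (σ : L ≃ₐ[ℚ] L) (v : Place L (laurentBaseChange L F₀))
    {b : laurentBaseChange L F₀} (hb : b ∈ v.toValuationSubring) :
    resF hx (arithmeticGalois F₀ σ • v) (arithmeticGalois F₀ σ • b)
        (ValuationSubring.smul_mem_pointwise_smul _ b v.toValuationSubring hb)
      = σ (resF hx v b hb) :=
  resF_smul hx v (arithmeticGalois F₀ σ) hb

end Arithmetic

/-! ### (iv) values of the functions regular away from the poles of `t` -/

section IntRing

variable [IsAlgClosed K] [CharZero K] {t : F} (ht : IsGen K t)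

/-- `B₀ ⊆ O_v` as soon as `t ∈ O_v`. -/
theorem intRing_mem (v : Place K F) (htv : t ∈ v.toValuationSubring) (b : intRing K t) :
    (b : F) ∈ v.toValuationSubring :=
  intRing_le_of_mem v htv b

/-- the value map `B₀ → K`, `b ↦ b(v)`, at a place `v` with `t ∈ O_v`. -/
def resInt (v : Place K F) (htv : t ∈ v.toValuationSubring) : intRing K t →+* K :=
  (res ht v : v.toValuationSubring →+* K).comp
    ((algebraMap (intRing K t) F).codRestrict v.toValuationSubring.toSubring
      (fun b => intRing_mem v htv b))

theorem resInt_apply (v : Place K F) (htv : t ∈ v.toValuationSubring) (b : intRing K t) :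
    resInt ht v htv b = resF ht v (b : F) (intRing_mem v htv b) := rfl

theorem resInt_eq_zero_iff (v : Place K F) (htv : t ∈ v.toValuationSubring) (b : intRing K t) :
    resInt ht v htv b = 0 ↔ (b : F) = 0 ∨ 0 < v.ord (b : F) :=
  res_eq_zero_iff' ht v _

/-- `t(v)`. -/
theorem resInt_gen (v : Place K F) (htv : t ∈ v.toValuationSubring) :
    resInt ht v htv ⟨t, (integralClosure (polyRing K t) F).algebraMap_mem (genA K t)⟩
      = resF ht v t htv := rfl

/-- **A place regular for `t` is determined by its values on `B₀`.** -/
theorem eq_of_resInt_eq (v w : Place K F) (htv : t ∈ v.toValuationSubring)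
    (htw : t ∈ w.toValuationSubring)
    (h : ∀ b : intRing K t, resInt ht v htv b = resInt ht w htw b) : v = w := by
  have := isDedekindDomain_intRing ht
  have := isFractionRing_intRing ht
  have hBv : ∀ b : intRing K t, algebraMap (intRing K t) F b ∈ v.toValuationSubring :=
    fun b => intRing_mem v htv b
  have hBw : ∀ b : intRing K t, algebraMap (intRing K t) F b ∈ w.toValuationSubring :=
    fun b => intRing_mem w htw b
  have hcentre : ∀ (u : Place K F) (htu : t ∈ u.toValuationSubring)
      (hBu : ∀ b : intRing K t, algebraMap (intRing K t) F b ∈ u.toValuationSubring)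
      (b : intRing K t), b ∈ FFDedekind.centre u hBu ↔ resInt ht u htu b = 0 := by
    intro u htu hBu b
    rw [FFDedekind.centre, Ideal.mem_comap]
    exact (res_eq_zero_iff ht u _).symm
  have hc : FFDedekind.centreSpec v hBv = FFDedekind.centreSpec w hBw := by
    apply IsDedekindDomain.HeightOneSpectrum.ext
    ext b
    show b ∈ FFDedekind.centre v hBv ↔ b ∈ FFDedekind.centre w hBw
    rw [hcentre v htv hBv, hcentre w htw hBw, h b]
  rw [← FFDedekind.ofHeightOneSpectrum_centreSpec v hBv,
    ← FFDedekind.ofHeightOneSpectrum_centreSpec w hBw, hc]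

/-- Two distinct places regular for `t` are separated by an element of `B₀`. -/
theorem exists_resInt_ne (v w : Place K F) (htv : t ∈ v.toValuationSubring)
    (htw : t ∈ w.toValuationSubring) (hvw : v ≠ w) :
    ∃ b : intRing K t, resInt ht v htv b ≠ resInt ht w htw b := by
  by_contra hcon
  push Not at hcon
  exact hvw (eq_of_resInt_eq ht v w htv htw hcon)

/-- Sharper separation: an element of `B₀` vanishing at `v` and not at `w`. -/
theorem exists_resInt_eq_zero_ne (v w : Place K F) (htv : t ∈ v.toValuationSubring)
    (htw : t ∈ w.toValuationSubring) (hvw : v ≠ w) :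
    ∃ b : intRing K t, resInt ht v htv b = 0 ∧ resInt ht w htw b ≠ 0 := by
  obtain ⟨b, hb⟩ := exists_resInt_ne ht v w htv htw hvw
  -- `b - b(v)` vanishes at `v`, and has value `b(w) - b(v) ≠ 0` at `w`
  let c : intRing K t := algebraMap K (intRing K t) (resInt ht v htv b)
  have hcv : resInt ht v htv c = resInt ht v htv b := by
    show resF ht v _ _ = _
    exact resF_algebraMap ht v _
  have hcw : resInt ht w htw c = resInt ht v htv b := by
    show resF ht w _ _ = _
    exact resF_algebraMap ht w _
  refine ⟨b - c, ?_, ?_⟩
  · rw [map_sub, hcv, sub_self]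
  · rw [map_sub, hcw, sub_ne_zero]
    exact fun h => hb h.symm

end IntRing

end Fermat.Agent.MW.Bridge89.Residue
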