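/-
Programme MW (S17), brick BR+ / TVAL-RES (helper89), part 2: **places regular for `t` are the
`K`-points of `Spec B₀`**, `B₀ = ChartAlg34.intCl K t` (helper34's integral closure of `K[t]` in `F`
as a `K`-subalgebra, the chart ring of the F1 model).

Setting: `K` algebraically closed of characteristic zero, `t : F` with `X0.FF.IsGen K t`.

* `intCl_mem`  : `B₀ ⊆ O_v` as soon as `t ∈ O_v`;
* `resCl ht v htv : B₀ →ₐ[K] K`, `b ↦ b(v)`; `resCl_apply`, `resCl_eq_zero_iff`, `resCl_genCl`;
* `eq_of_resCl_eq` : injectivity of `v ↦ resCl v` on the places with `t ∈ O_v`;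
* `exists_place_of_algHom` : surjectivity: every `φ : B₀ →ₐ[K] K` is `resCl v` for a place `v` with
  `t ∈ O_v`;
* `placeEquivPoints ht : {v : Place K F // t ∈ O_v} ≃ (B₀ →ₐ[K] K)`;
* `resCl_smul` : semilinear (Galois) equivariance, for `g` with `g • t = t`.
-/
import Mathlib
import Fermat.Agent.MW.Bridge89.Residue
import Fermat.Agent.AV.F1Model15.ChartAlg34.IntClosure

set_option autoImplicit false
set_option linter.unusedSectionVars false

noncomputable section

open AlgebraicCurve IntermediateField IsLocalRing

namespace Fermat.Agent.MW.Bridge89.ResidueCl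

open Fermat.Agent.X0 Fermat.Agent.X0.FF Fermat.Agent.MW.Bridge89.Residue
open Fermat.Agent.AV.F1Model15.ChartAlg34 (intCl genCl self_mem_intCl)

variable {K F : Type*} [Field K] [Field F] [Algebra K F] [IsAlgClosed K] [CharZero K]
  {t : F} (ht : IsGen K t)

/-- `B₀ ⊆ O_v` as soon as `t ∈ O_v`. -/
theorem intCl_mem (v : Place K F) (htv : t ∈ v.toValuationSubring) {b : F} (hb : b ∈ intCl K t) :
    b ∈ v.toValuationSubring :=
  intRing_le_of_mem v htv ⟨b, hb⟩

/-- the inclusion `B₀ → O_v`. -/
def inclCl (v : Place K F) (htv : t ∈ v.toValuationSubring) :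
    intCl K t →ₐ[K] v.toValuationSubring where
  toFun b := ⟨(b : F), intCl_mem v htv b.2⟩
  map_one' := rfl
  map_mul' _ _ := rfl
  map_zero' := rfl
  map_add' _ _ := rfl
  commutes' _ := rfl

@[simp] theorem coe_inclCl (v : Place K F) (htv : t ∈ v.toValuationSubring) (b : intCl K t) :
    ((inclCl v htv b : v.toValuationSubring) : F) = (b : F) := rfl

/-- **The `K`-point of `Spec B₀` attached to a place `v` regular for `t`**: `b ↦ b(v)`. -/
def resCl (v : Place K F) (htv : t ∈ v.toValuationSubring) : intCl K t →ₐ[K] K :=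
  (res ht v).comp (inclCl v htv)

theorem resCl_apply (v : Place K F) (htv : t ∈ v.toValuationSubring) (b : intCl K t) :
    resCl ht v htv b = resF ht v (b : F) (intCl_mem v htv b.2) := rfl

theorem resCl_eq_iff (v : Place K F) (htv : t ∈ v.toValuationSubring) (b : intCl K t) (c : K) :
    resCl ht v htv b = c ↔
      (b : F) = algebraMap K F c ∨ 0 < v.ord ((b : F) - algebraMap K F c) :=
  res_eq_iff ht v _ c

theorem resCl_eq_zero_iff (v : Place K F) (htv : t ∈ v.toValuationSubring) (b : intCl K t) :
    resCl ht v htv b = 0 ↔ (b : F) = 0 ∨ 0 < v.ord (b : F) :=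
  res_eq_zero_iff' ht v _

/-- `t(v)`. -/
theorem resCl_genCl (v : Place K F) (htv : t ∈ v.toValuationSubring) :
    resCl ht v htv (genCl t) = resF ht v t htv := rfl

/-- **Injectivity**: a place regular for `t` is determined by its `K`-point of `Spec B₀`. -/
theorem eq_of_resCl_eq (v w : Place K F) (htv : t ∈ v.toValuationSubring)
    (htw : t ∈ w.toValuationSubring) (h : resCl ht v htv = resCl ht w htw) : v = w :=
  eq_of_resInt_eq ht v w htv htw fun b => DFunLike.congr_fun h ⟨(b : F), b.2⟩

/-- **Surjectivity**: every `K`-point of `Spec B₀` comes from a place regular for `t`. -/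
theorem exists_place_of_algHom (φ : intCl K t →ₐ[K] K) :
    ∃ (v : Place K F) (htv : t ∈ v.toValuationSubring), resCl ht v htv = φ := by
  have hfin := ht.finite
  have hsep : Algebra.IsSeparable K⟮t⟯ F :=
    Fermat.Agent.AV.F1Model15.ChartAlg34.isSeparable_adjoin_simple t
  have hDed : IsDedekindDomain (intCl K t) :=
    Fermat.Agent.AV.F1Model15.ChartAlg34.isDedekindDomain_intCl ht.transcendental
  have hFrac : IsFractionRing (intCl K t) F :=
    Fermat.Agent.AV.F1Model15.ChartAlg34.isFractionRing_intCl ht.transcendental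
  -- the kernel of `φ` is a nonzero maximal ideal
  have hsurj : Function.Surjective (φ : intCl K t →+* K) := fun c =>
    ⟨algebraMap K (intCl K t) c, φ.commutes c⟩
  have hmax : (RingHom.ker (φ : intCl K t →+* K)).IsMaximal :=
    RingHom.ker_isMaximal_of_surjective _ hsurj
  have hne : RingHom.ker (φ : intCl K t →+* K) ≠ ⊥ := by
    intro hbot
    set b : intCl K t := genCl t - algebraMap K (intCl K t) (φ (genCl t)) with hb
    have hb0 : b ∈ RingHom.ker (φ : intCl K t →+* K) := by
      rw [RingHom.mem_ker]
      show φ b = 0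
      rw [hb, map_sub, AlgHom.commutes]
      exact sub_self _
    rw [hbot, Ideal.mem_bot] at hb0
    have h1 : t = algebraMap K F (φ (genCl t)) := by
      have := congrArg (Subtype.val : intCl K t → F) hb0
      rw [hb] at this
      exact sub_eq_zero.mp this
    apply ht.transcendental
    rw [h1]
    exact isAlgebraic_algebraMap _
  let w : IsDedekindDomain.HeightOneSpectrum (intCl K t) :=
    ⟨RingHom.ker (φ : intCl K t →+* K), hmax.isPrime, hne⟩
  let v : Place K F := Place.ofHeightOneSpectrum (K := K) (F := F) w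
  have hB : ∀ b : intCl K t, algebraMap (intCl K t) F b ∈ v.toValuationSubring :=
    FFDedekind.algebraMap_mem_ofHeightOneSpectrum (K := K) (F := F) w
  have htv : t ∈ v.toValuationSubring := hB (genCl t)
  refine ⟨v, htv, ?_⟩
  -- both maps have kernel `w.asIdeal`, and are `K`-algebra maps onto `K`
  ext b
  have hker : ∀ b' : intCl K t, resCl ht v htv b' = 0 ↔ φ b' = 0 := by
    intro b'
    rw [resCl_eq_zero_iff]
    have h2 := mem_asIdeal_iff_ord_pos (K := K) (F := F) w b'
    have h3 : b' ∈ w.asIdeal ↔ φ b' = 0 := by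
      show b' ∈ RingHom.ker (φ : intCl K t →+* K) ↔ _
      rw [RingHom.mem_ker]
      rfl
    rw [← h3, h2]
    constructor
    · rintro (h | h)
      · left; exact Subtype.ext h
      · right; exact h
    · rintro (h | h)
      · left; rw [h]; rfl
      · right; exact h
  have h0 : φ (b - algebraMap K (intCl K t) (φ b)) = 0 := by
    rw [map_sub, AlgHom.commutes]
    exact sub_self _
  have h1 := (hker _).mpr h0
  rw [map_sub, AlgHom.commutes] at h1
  exact sub_eq_zero.mp h1

/-- **Places regular for `t` ≃ `K`-points of `Spec B₀`.** -/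
def placeEquivPoints : {v : Place K F // t ∈ v.toValuationSubring} ≃ (intCl K t →ₐ[K] K) :=
  Equiv.ofBijective (fun v => resCl ht v.1 v.2)
    ⟨fun v w h => Subtype.ext (eq_of_resCl_eq ht v.1 w.1 v.2 w.2 h),
      fun φ => by
        obtain ⟨v, htv, h⟩ := exists_place_of_algHom ht φ
        exact ⟨⟨v, htv⟩, h⟩⟩

@[simp] theorem placeEquivPoints_apply (v : {v : Place K F // t ∈ v.toValuationSubring}) :
    placeEquivPoints ht v = resCl ht v.1 v.2 := rfl

/-- **Semilinear (Galois) equivariance** of the values on `B₀`, for `g` fixing `t`. -/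
theorem resCl_smul (g : SemilinearAut K F) (hg : g • t = t) (v : Place K F)
    (htv : t ∈ v.toValuationSubring) (b : intCl K t) (hgb : g • (b : F) ∈ intCl K t) :
    resCl ht (g • v)
        (by
          have := ValuationSubring.smul_mem_pointwise_smul g t v.toValuationSubring htv
          rwa [hg] at this)
        ⟨g • (b : F), hgb⟩
      = SemilinearAut.baseAut g (resCl ht v htv b) :=
  resF_smul ht v g (intCl_mem v htv b.2)

/-- `B₀` is stable under a semilinear automorphism fixing `t`. -/
theorem smul_mem_intCl (g : SemilinearAut K F) (hg : g • t = t) {b : F} (hb : b ∈ intCl K t) :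
    g • b ∈ intCl K t := by
  -- transport the integrality equation along the ring automorphism `g`
  obtain ⟨p, hmonic, hp⟩ := hb
  -- the ring automorphism of `K[t]` induced by `g`
  have hstab : ∀ a ∈ Algebra.adjoin K ({t} : Set F), g • a ∈ Algebra.adjoin K ({t} : Set F) := by
    intro a ha
    induction ha using Algebra.adjoin_induction with
    | mem y hy =>
        rw [Set.mem_singleton_iff] at hy
        rw [hy, hg]
        exact Algebra.self_mem_adjoin_singleton K t
    | algebraMap c =>
        rw [SemilinearAut.smul_algebraMap]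
        exact Subalgebra.algebraMap_mem _ _
    | add y z _ _ hy hz => rw [smul_add]; exact add_mem hy hz
    | mul y z _ _ hy hz => rw [smul_mul']; exact mul_mem hy hz
  let ψ : Algebra.adjoin K ({t} : Set F) →+* Algebra.adjoin K ({t} : Set F) :=
    { toFun := fun a => ⟨g • (a : F), hstab a a.2⟩
      map_one' := Subtype.ext (smul_one g)
      map_mul' := fun a b => Subtype.ext (smul_mul' g (a : F) (b : F))
      map_zero' := Subtype.ext (smul_zero g)
      map_add' := fun a b => Subtype.ext (smul_add g (a : F) (b : F)) }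
  refine ⟨p.map ψ, hmonic.map ψ, ?_⟩
  rw [Polynomial.eval₂_map]
  have hcomp : (algebraMap (Algebra.adjoin K ({t} : Set F)) F).comp ψ
      = ((SemilinearAut.toRingAut g : F ≃+* F) : F →+* F).comp
          (algebraMap (Algebra.adjoin K ({t} : Set F)) F) := by
    ext a
    rfl
  rw [hcomp]
  have h1 : Polynomial.eval₂ (((SemilinearAut.toRingAut g : F ≃+* F) : F →+* F).comp
      (algebraMap (Algebra.adjoin K ({t} : Set F)) F)) (g • b) p
      = (SemilinearAut.toRingAut g : F ≃+* F)
          (Polynomial.eval₂ (algebraMap (Algebra.adjoin K ({t} : Set F)) F) b p) := by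
    rw [show g • b = ((SemilinearAut.toRingAut g : F ≃+* F) : F →+* F) b from rfl,
      ← Polynomial.hom_eval₂]
    rfl
  rw [h1, hp, map_zero]

end Fermat.Agent.MW.Bridge89.ResidueCl
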