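/-
Programme MW (S17), brick BR+ / TVAL-RES (helper89), part 3 = item (ii): **comparison of the three
"value at a place" maps of the tree**, and of helper61's `tval` / `Coordinate.val` with them.

* `valueHom13_eq_res` : `ES.RED.PlaceValue13.valueHom hx v = Residue.res hx v`
  (both are THE `K`-algebra map `O_v → K`, `Residue.res_unique`);
* `tval_eq_resF`      : `NCA61.Values.tval ht hreg v hv = Residue.resF ht v t _`;
* `tval_eq_resCl`     : `… = ResidueCl.resCl ht v _ (genCl t)` — the `t`-coordinate of the `K`-point of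
  `Spec B₀` (`B₀ = ChartAlg34.intCl ℚbar t`) attached to the place `v ≠ ∞`;
* `Coordinate.val_eq_resF`, `Coordinate.val_eq_resCl` : the same for `NCA61.Final.Coordinate`;
* `Coordinate.pointOf c v hv : intCl ℚbar c.t →ₐ[ℚbar] ℚbar`, the `ℚbar`-point of `Spec B₀ = X₀(N) ∖ ∞`
  of a place `v ≠ ∞`; `pointOf_injective`; `exists_pointOf_eq` (every `ℚbar`-point of `Spec B₀` is one,
  needs `ord_∞ t < 0`); `pointOf_smul` (Galois).
-/
import Mathlib
import Fermat.Agent.MW.NCA61.Final
import Fermat.Agent.MW.Bridge89.ResidueCl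

set_option autoImplicit false
set_option linter.unusedSectionVars false

noncomputable section

open AlgebraicCurve ModularCurve

namespace Fermat.Agent.MW.Bridge89.TvalRes

open Fermat.Agent.X0 Fermat.Agent.X0.FF
open Fermat.Agent.MW.Bridge89.Residue Fermat.Agent.MW.Bridge89.ResidueCl
open Fermat.Agent.MW.NCA61.InfPlace Fermat.Agent.MW.NCA61.Values Fermat.Agent.MW.NCA61.Final
open Fermat.Agent.AV.F1Model15.ChartAlg34 (intCl genCl)

section Generic

variable {K F : Type*} [Field K] [IsAlgClosed K] [Field F] [Algebra K F] {x : F}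

/-- The value map of `ES/RED/PlaceValue13` is the residue map of `MW/Bridge89/Residue`. -/
theorem valueHom13_eq_res (hx : IsGen K x) (v : Place K F) :
    Fermat.Agent.ES.RED.PlaceValue13.valueHom hx v = res hx v :=
  res_unique hx v _

theorem valueHom13_apply (hx : IsGen K x) (v : Place K F) {f : F}
    (hf : f ∈ v.toValuationSubring) :
    Fermat.Agent.ES.RED.PlaceValue13.valueHom hx v ⟨f, hf⟩ = resF hx v f hf := by
  rw [valueHom13_eq_res]
  rfl

end Generic

variable {N : ℕ} [NeZero N]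

local notation "gal" => arithmeticGalois (modularFunctionFieldFull N)

section Tval

variable {t : FF N} (ht : IsGen Kbar t)
  (hreg : ∀ v : Place Kbar (FF N), v ≠ inftyPlace N → 0 ≤ v.ord t)

/-- **(ii)** `tval v = res_v t`. -/
theorem tval_eq_resF (v : Place Kbar (FF N)) (hv : v ≠ inftyPlace N) :
    tval ht hreg v hv = resF ht v t (t_mem hreg v hv) :=
  valueHom13_apply ht v (t_mem hreg v hv)

/-- `tval v` is the `t`-coordinate of the `ℚbar`-point of `Spec B₀` attached to `v`. -/
theorem tval_eq_resCl (v : Place Kbar (FF N)) (hv : v ≠ inftyPlace N) :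
    tval ht hreg v hv = resCl ht v (t_mem hreg v hv) (genCl t) :=
  tval_eq_resF ht hreg v hv

end Tval

namespace Coordinate

variable (c : Coordinate N)

theorem t_mem (v : Place Kbar (FF N)) (hv : v ≠ inftyPlace N) : c.t ∈ v.toValuationSubring :=
  Fermat.Agent.MW.NCA61.Values.t_mem c.regular v hv

theorem val_eq_resF (v : Place Kbar (FF N)) (hv : v ≠ inftyPlace N) :
    c.val v hv = resF c.isGen v c.t (t_mem c v hv) :=
  tval_eq_resF c.isGen c.regular v hv

/-- **The `ℚbar`-point of `Spec B₀ = X₀(N) ∖ ∞`** attached to a place `v ≠ ∞`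
(`B₀ = intCl ℚbar c.t`, the integral closure of `ℚbar[t]`). -/
def pointOf (v : Place Kbar (FF N)) (hv : v ≠ inftyPlace N) : intCl Kbar c.t →ₐ[Kbar] Kbar :=
  resCl c.isGen v (t_mem c v hv)

theorem pointOf_apply (v : Place Kbar (FF N)) (hv : v ≠ inftyPlace N) (b : intCl Kbar c.t) :
    pointOf c v hv b = resF c.isGen v (b : FF N) (intCl_mem v (t_mem c v hv) b.2) := rfl

theorem val_eq_pointOf (v : Place Kbar (FF N)) (hv : v ≠ inftyPlace N) :
    c.val v hv = pointOf c v hv (genCl c.t) :=
  val_eq_resF c v hv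

theorem pointOf_eq_iff (v : Place Kbar (FF N)) (hv : v ≠ inftyPlace N) (b : intCl Kbar c.t)
    (a : Kbar) :
    pointOf c v hv b = a ↔
      (b : FF N) = algebraMap Kbar (FF N) a ∨ 0 < v.ord ((b : FF N) - algebraMap Kbar (FF N) a) :=
  resCl_eq_iff c.isGen v (t_mem c v hv) b a

/-- A place `≠ ∞` is determined by its point on `Spec B₀`. -/
theorem pointOf_injective {v w : Place Kbar (FF N)} (hv : v ≠ inftyPlace N)
    (hw : w ≠ inftyPlace N) (h : pointOf c v hv = pointOf c w hw) : v = w :=
  eq_of_resCl_eq c.isGen v w (t_mem c v hv) (t_mem c w hw) h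

/-- Every `ℚbar`-point of `Spec B₀` is the point of a place `≠ ∞` (as soon as `∞` is a pole of `t`). -/
theorem exists_pointOf_eq (hoo : (inftyPlace N).ord c.t < 0) (φ : intCl Kbar c.t →ₐ[Kbar] Kbar) :
    ∃ (v : Place Kbar (FF N)) (hv : v ≠ inftyPlace N), pointOf c v hv = φ := by
  obtain ⟨v, htv, h⟩ := exists_place_of_algHom c.isGen φ
  have hv : v ≠ inftyPlace N := by
    rintro rfl
    have := Fermat.Agent.X0.FF.ord_nonneg_of_mem _ htv
    omega
  exact ⟨v, hv, h⟩

/-- `B₀` is Galois stable. -/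
theorem smul_mem_intCl (σ : Kbar ≃ₐ[ℚ] Kbar) {b : FF N} (hb : b ∈ intCl Kbar c.t) :
    gal σ • b ∈ intCl Kbar c.t :=
  ResidueCl.smul_mem_intCl (gal σ) (c.fixed σ) hb

/-- **Galois equivariance of the points**: `(σ b)(σ v) = σ (b(v))` for `b ∈ B₀`. -/
theorem pointOf_smul (σ : Kbar ≃ₐ[ℚ] Kbar) (v : Place Kbar (FF N)) (hv : v ≠ inftyPlace N)
    (b : intCl Kbar c.t) :
    pointOf c (gal σ • v) (smul_ne_infty σ hv) ⟨gal σ • (b : FF N), smul_mem_intCl c σ b.2⟩
      = σ (pointOf c v hv b) := by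
  have h := resF_smul c.isGen v (gal σ) (intCl_mem v (t_mem c v hv) b.2)
  rw [baseAut_arithmeticGalois] at h
  exact h

end Coordinate

end Fermat.Agent.MW.Bridge89.TvalRes
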